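/-
GATE-J / J4-ALG, step 2 (Mathlib + GJ/J4/Quad).
`k0` a FINITE field, `W` a finite-dimensional `k0`-space, `A ⊆ End_{k0} W` a subalgebra acting
irreducibly on `W`, every element of which is killed by a monic quadratic over `k0`.
Then `dim_{k0} W ≤ 2`.
(Schur + Wedderburn: `D = End_A W` is a finite field; Jacobson density: `A = End_D W`; then
`dim_D W ≤ 2`, `dim_D W = 2 ⇒ D = k0`, `dim_D W = 1 ⇒ [D : k0] ≤ 2`.)
-/
import Mathlib
import Fermat.Agent.GJ.J4.Quad

set_option autoImplicit false

namespace Fermat.Agent.GJ.Alg

open Module

section abstractTower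

variable {k0 : Type*} [Field k0] {D : Type*} [Field D] [Algebra k0 D]
  {W : Type*} [AddCommGroup W] [Module k0 W] [Module D W] [IsScalarTower k0 D W]
  [Module.Finite D W]

/-- case `dim_D W = 1`: every element of `D` is quadratic over `k0`, so `[D : k0] ≤ 2`. -/
theorem finrank_le_two_of_finrank_eq_one [FiniteDimensional k0 D] [Algebra.IsSeparable k0 D]
    (h : ∀ T : Module.End D W, ∃ t n : k0, ∀ w : W, T (T w) - t • T w + n • w = 0)
    (h1 : Module.finrank D W = 1) : Module.finrank k0 D ≤ 2 := by
  classical
  have hpos : 0 < Module.finrank D W := by omega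
  have : Nontrivial W := Module.finrank_pos_iff.mp hpos
  obtain ⟨w, hw⟩ := exists_ne (0 : W)
  have hz : ∀ z : D, ∃ t n : k0, z * z - algebraMap k0 D t * z + algebraMap k0 D n = 0 := by
    intro z
    obtain ⟨t, n, htn⟩ := h (z • (1 : Module.End D W))
    refine ⟨t, n, ?_⟩
    have := htn w
    simp only [LinearMap.smul_apply, Module.End.one_apply] at this
    rw [← algebraMap_smul D t, ← algebraMap_smul D n, smul_smul, smul_smul, ← sub_smul,
      ← add_smul] at this
    exact (smul_eq_zero.mp this).resolve_right hw
  obtain ⟨α, hα⟩ := Field.exists_primitive_element k0 D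
  have hint : IsIntegral k0 α := Algebra.IsIntegral.isIntegral α
  have e1 : Module.finrank k0 D = (minpoly k0 α).natDegree := by
    rw [← IntermediateField.adjoin.finrank hint, hα, IntermediateField.finrank_top']
  obtain ⟨t, n, htn⟩ := hz α
  have hdvd : minpoly k0 α ∣
      (Polynomial.X ^ 2 - Polynomial.C t * Polynomial.X + Polynomial.C n) := by
    apply minpoly.dvd
    simp only [Polynomial.aeval_add, Polynomial.aeval_sub, Polynomial.aeval_mul,
      Polynomial.aeval_X, Polynomial.aeval_C, map_pow]
    rw [← htn]; ring
  have hdeg : (Polynomial.X ^ 2 - Polynomial.C t * Polynomial.X + Polynomial.C n :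
      Polynomial k0).natDegree = 2 := by
    compute_degree!
  have hne : (Polynomial.X ^ 2 - Polynomial.C t * Polynomial.X + Polynomial.C n :
      Polynomial k0) ≠ 0 := by
    intro h0
    rw [h0] at hdeg
    simp at hdeg
  rw [e1]
  calc (minpoly k0 α).natDegree ≤ _ := Polynomial.natDegree_le_of_dvd hdvd hne
    _ = 2 := hdeg

/-- case `dim_D W = 2`: every element of `D` lies in `k0`, so `[D : k0] = 1`. -/
theorem finrank_eq_one_of_finrank_eq_two
    (h : ∀ T : Module.End D W, ∃ t n : k0, ∀ w : W, T (T w) - t • T w + n • w = 0)
    (h2 : Module.finrank D W = 2) : Module.finrank k0 D = 1 := by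
  classical
  let b : Module.Basis (Fin 2) D W := Module.finBasisOfFinrankEq D W h2
  have hb0 : b 0 ≠ 0 := b.ne_zero 0
  have hb1 : b 1 ≠ 0 := b.ne_zero 1
  have hz : ∀ z : D, ∃ c : k0, c • (1 : D) = z := by
    intro z
    let T : Module.End D W := b.constr D ![z • b 0, 0]
    have hT0 : T (b 0) = z • b 0 := by simp [T]
    have hT1 : T (b 1) = 0 := by simp [T]
    obtain ⟨t, n, htn⟩ := h T
    have e1 := htn (b 1)
    rw [hT1, map_zero, smul_zero, sub_zero, zero_add] at e1
    have hn0 : n = 0 := (smul_eq_zero.mp e1).resolve_right hb1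
    have e0 := htn (b 0)
    rw [hT0, map_smul, hT0, hn0, zero_smul, add_zero, ← algebraMap_smul D t, smul_smul, smul_smul,
      ← sub_smul] at e0
    have e0' := (smul_eq_zero.mp e0).resolve_right hb0
    have : z * (z - algebraMap k0 D t) = 0 := by rw [← e0']; ring
    rcases mul_eq_zero.mp this with hz0 | hzt
    · exact ⟨0, by rw [zero_smul, hz0]⟩
    · exact ⟨t, by rw [Algebra.smul_def, mul_one]; exact (sub_eq_zero.mp hzt).symm⟩
  exact (finrank_eq_one_iff_of_nonzero' (1 : D) one_ne_zero).mpr hz

/-- If every `D`-linear endomorphism of `W` is killed by a monic quadratic with coefficients in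
the subfield `k0`, then `dim_{k0} W ≤ 2`. -/
theorem finrank_le_two_of_forall_quadratic_tower [FiniteDimensional k0 D]
    [Algebra.IsSeparable k0 D]
    (h : ∀ T : Module.End D W, ∃ t n : k0, ∀ w : W, T (T w) - t • T w + n • w = 0) :
    Module.finrank k0 W ≤ 2 := by
  classical
  have hquad : ∀ T : Module.End D W, ∃ s t : D,
      T * T - s • T + t • (1 : Module.End D W) = 0 := by
    intro T
    obtain ⟨t, n, htn⟩ := h T
    refine ⟨algebraMap k0 D t, algebraMap k0 D n, ?_⟩
    ext w
    simp only [LinearMap.add_apply, LinearMap.sub_apply, Module.End.mul_apply,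
      LinearMap.smul_apply, Module.End.one_apply, LinearMap.zero_apply, algebraMap_smul]
    exact htn w
  have hn : Module.finrank D W ≤ 2 :=
    Fermat.Agent.GJ.J4.finrank_le_two_of_forall_quadratic hquad
  have htower : Module.finrank k0 D * Module.finrank D W = Module.finrank k0 W :=
    Module.finrank_mul_finrank k0 D W
  rw [← htower]
  interval_cases hm : Module.finrank D W
  · omega
  · have := finrank_le_two_of_finrank_eq_one h hm
    omega
  · have := finrank_eq_one_of_finrank_eq_two h hm
    omega

end abstractTower

section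
variable {k0 : Type*} [Field k0] [Finite k0] {W : Type*} [AddCommGroup W] [Module k0 W]
  [Module.Finite k0 W] (A : Subalgebra k0 (Module.End k0 W)) [IsSimpleModule A W]

/-- density: every endomorphism of `W` over `End_A W` is the action of an element of `A`. -/
theorem exists_mem_eq_of_end (f : Module.End (Module.End A W) W) :
    ∃ x : A, ∀ w : W, f w = (x : Module.End k0 W) w := by
  classical
  have : Finite W := Module.finite_of_finite k0
  have : Fintype W := Fintype.ofFinite W
  obtain ⟨r, hr⟩ := jacobson_density (R := A) (M := W) f Finset.univ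
  exact ⟨r, fun w => hr w (Finset.mem_univ w)⟩

/-- **Step 2.** An irreducible algebra of endomorphisms of a finite-dimensional space over a finite
field, all of whose elements are quadratic, acts on a space of dimension at most two. -/
theorem finrank_le_two_of_quadratic
    (hA : ∀ x ∈ A, ∃ t n : k0, x * x - t • x + n • (1 : Module.End k0 W) = 0) :
    Module.finrank k0 W ≤ 2 := by
  classical
  have : Finite W := Module.finite_of_finite k0
  letI : DivisionRing (Module.End A W) := Module.End.instDivisionRing
  have : Finite (Module.End A W) :=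
    Finite.of_injective (fun f : Module.End A W => (f : W → W)) DFunLike.coe_injective
  letI : Field (Module.End A W) := littleWedderburn _
  have : Module.Finite (Module.End A W) W := Module.Finite.of_finite
  have : FiniteDimensional k0 (Module.End A W) := Module.Finite.of_finite
  apply finrank_le_two_of_forall_quadratic_tower (k0 := k0) (D := Module.End A W) (W := W)
  intro T
  obtain ⟨x, hx⟩ := exists_mem_eq_of_end A T
  obtain ⟨t, n, htn⟩ := hA x x.2
  refine ⟨t, n, fun w => ?_⟩
  have h1 := LinearMap.congr_fun htn w
  simp only [LinearMap.add_apply, LinearMap.sub_apply, Module.End.mul_apply,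
    LinearMap.smul_apply, Module.End.one_apply, LinearMap.zero_apply] at h1
  rw [hx, hx]
  exact h1

end
end Fermat.Agent.GJ.Alg
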