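/-
GATE-J / J4-ALG, step 3a (Mathlib + GJ/J4/Quad + GJ/Alg/Dim).
Ring form of the dimension bound, scalars in dimension one, and the characteristic polynomial in
dimension two in the presence of ONE non-scalar element (no spanning hypothesis).
-/
import Mathlib
import Fermat.Agent.GJ.J4.Quad
import Fermat.Agent.GJ.Alg.Dim

set_option autoImplicit false

namespace Fermat.Agent.GJ.Alg

open Polynomial Module

section ringForm

variable {k0 : Type*} [Field k0] [Finite k0] {R : Type*} [Ring R] [Algebra k0 R]
  {W : Type*} [AddCommGroup W]
  [Module k0 W] [Module R W] [IsScalarTower k0 R W]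
  [Module.Finite k0 W] [IsSimpleModule R W]

/-- **Step 2, ring form.** A simple module over a `k0`-algebra `R` (`k0` a finite field), finite
dimensional over `k0`, on which every element of `R` acts quadratically, has `k0`-dimension at
most two. -/
theorem finrank_le_two_of_quadratic_ring
    (hR : ∀ x : R, ∃ t n : k0, ∀ w : W, x • x • w - t • x • w + n • w = 0) :
    Module.finrank k0 W ≤ 2 := by
  classical
  have : Finite W := Module.finite_of_finite k0
  have : Fintype W := Fintype.ofFinite W
  letI : DivisionRing (Module.End R W) := Module.End.instDivisionRing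
  have : Finite (Module.End R W) :=
    Finite.of_injective (fun f : Module.End R W => (f : W → W)) DFunLike.coe_injective
  letI : Field (Module.End R W) := littleWedderburn _
  have : Module.Finite (Module.End R W) W := Module.Finite.of_finite
  have : FiniteDimensional k0 (Module.End R W) := Module.Finite.of_finite
  apply finrank_le_two_of_forall_quadratic_tower (k0 := k0) (D := Module.End R W) (W := W)
  intro T
  obtain ⟨x, hx⟩ := jacobson_density (R := R) (M := W) T Finset.univ
  obtain ⟨t, n, htn⟩ := hR x
  refine ⟨t, n, fun w => ?_⟩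
  rw [hx w (Finset.mem_univ w), hx _ (Finset.mem_univ _)]
  exact htn w

end ringForm

section generic

variable {K : Type*} [Field K] {V : Type*} [AddCommGroup V] [Module K V]
variable {G : Type*} [Group G] {r : G →* Module.End K V} {d : G →* K} {a : G → K}

/-- every endomorphism of a one-dimensional space is a scalar -/
theorem exists_eq_smul_one_of_finrank_eq_one (h1 : Module.finrank K V = 1) (f : Module.End K V) :
    ∃ c : K, f = c • 1 := by
  obtain ⟨v, hv, hspan⟩ := finrank_eq_one_iff'.mp h1
  obtain ⟨c, hc⟩ := hspan (f v)
  refine ⟨c, ?_⟩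
  ext w
  obtain ⟨e, rfl⟩ := hspan w
  rw [map_smul, ← hc, LinearMap.smul_apply, Module.End.one_apply, smul_comm]

/-- Variant of `J4.charpoly_eq_of_quadratic`: in dimension two, if ONE `r h` is not a scalar, the
quadratic relations are the characteristic polynomials (same proof; the spanning hypothesis was
only used to produce `h`). -/
theorem charpoly_eq_of_quadratic_of_not_scalar [Module.Finite K V]
    (h : G) (hh : ∀ c : K, r h ≠ c • 1) (h2 : Module.finrank K V = 2)
    (hq : ∀ g, r g * r g - a g • r g + d g • 1 = 0) (g : G) :
    (r g).charpoly = X ^ 2 - C (a g) * X + C (d g) := by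
  have : Nontrivial V := Module.nontrivial_of_finrank_pos (R := K) (by omega)
  by_cases hns : ∀ c : K, r g ≠ c • 1
  · obtain ⟨s, t, hcp, hch⟩ := J4.exists_charpoly_quadratic h2 (r g)
    obtain ⟨hs, ht⟩ := J4.quadratic_unique_of_not_scalar (r g) hns hch (hq g)
    rw [hcp, hs, ht]
  · push Not at hns
    obtain ⟨c, hc⟩ := hns
    have hc0 : c ≠ 0 := by
      intro h0
      have h1 : r g * r g⁻¹ = 1 := by rw [← map_mul, mul_inv_cancel, map_one]
      rw [hc, h0, zero_smul, zero_mul] at h1
      exact zero_ne_one h1
    have hgh : r (g * h) = c • r h := by rw [map_mul, hc, smul_mul_assoc, one_mul]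
    -- the relation for `g * h`, divided by `c²`
    have hrel : r h * r h - (c⁻¹ * a (g * h)) • r h + (c⁻¹ * c⁻¹ * (d g * d h)) • 1 = 0 := by
      have h1 := hq (g * h)
      rw [hgh, map_mul] at h1
      have h3 : r h * r h - (c⁻¹ * a (g * h)) • r h + (c⁻¹ * c⁻¹ * (d g * d h)) • 1 =
          (c⁻¹ * c⁻¹) • (c • r h * c • r h - a (g * h) • c • r h + (d g * d h) • 1) := by
        rw [smul_add, smul_sub, smul_mul_assoc, mul_smul_comm, smul_smul, smul_smul, smul_smul,
          smul_smul]
        have e1 : c⁻¹ * c⁻¹ * c * c = 1 := by field_simp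
        have e2 : c⁻¹ * c⁻¹ * a (g * h) * c = c⁻¹ * a (g * h) := by field_simp
        rw [e1, e2, one_smul, smul_smul]
      rw [h3, h1, smul_zero]
    obtain ⟨-, hd⟩ := J4.quadratic_unique_of_not_scalar (r h) hh (hq h) hrel
    have hdh : d h ≠ 0 := J4.d_ne_zero d h
    have hdg : d g = c * c := by
      have h5 : d h * (c * c) = d h * d g := by
        conv_lhs => rw [hd]
        field_simp
      exact (mul_left_cancel₀ hdh h5).symm
    have hag : a g = 2 * c := by
      have h1 := hq g
      rw [hc, smul_mul_assoc, one_mul, smul_smul, smul_smul, ← sub_smul, ← add_smul, hdg] at h1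
      have h6 : c * c - a g * c + c * c = 0 := by
        by_contra hne
        obtain ⟨v, hv⟩ := exists_ne (0 : V)
        have := LinearMap.congr_fun h1 v
        simp only [LinearMap.smul_apply, Module.End.one_apply, LinearMap.zero_apply,
          smul_eq_zero] at this
        rcases this with h4 | h4
        · exact hne h4
        · exact hv h4
      have h7 : c * (2 * c - a g) = 0 := by rw [← h6]; ring
      rcases mul_eq_zero.mp h7 with h8 | h8
      · exact absurd h8 hc0
      · exact (sub_eq_zero.mp h8).symm
    rw [hc, J4.charpoly_smul_one h2, hag, hdg]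

end generic
end Fermat.Agent.GJ.Alg
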