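/-
GATE-J / J4-ALG, step 1 (Mathlib only).
If every `ρ g` satisfies `(ρ g)² - a(g) ρ g + d(g) = 0` with `d` a homomorphism, then EVERY element of
the linear span of `ρ(G)` satisfies a monic quadratic equation over the base field.
-/
import Mathlib

set_option autoImplicit false

namespace Fermat.Agent.GJ.Alg

variable {k0 : Type*} [Field k0] {G : Type*} [Group G] {W : Type*} [AddCommGroup W] [Module k0 W]

/-- `z` is a scalar endomorphism. -/
def IsScalar (z : Module.End k0 W) : Prop := ∃ s : k0, z = s • (1 : Module.End k0 W)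

theorem IsScalar.add {z w : Module.End k0 W} (hz : IsScalar z) (hw : IsScalar w) :
    IsScalar (z + w) := by
  obtain ⟨s, rfl⟩ := hz
  obtain ⟨t, rfl⟩ := hw
  exact ⟨s + t, by rw [add_smul]⟩

theorem IsScalar.smul {z : Module.End k0 W} (hz : IsScalar z) (r : k0) : IsScalar (r • z) := by
  obtain ⟨s, rfl⟩ := hz
  exact ⟨r * s, by rw [smul_smul]⟩

theorem IsScalar.zero : IsScalar (0 : Module.End k0 W) := ⟨0, by rw [zero_smul]⟩

section

variable (ρ : G →* Module.End k0 W) (d : G →* k0ˣ) (a : G → k0)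

/-- `X c = Σ c_g ρ(g)`. -/
noncomputable def Xl : (G →₀ k0) →ₗ[k0] Module.End k0 W :=
  Finsupp.linearCombination k0 (fun g => ρ g)

/-- `Y c = Σ c_g d(g) ρ(g⁻¹)`. -/
noncomputable def Yl : (G →₀ k0) →ₗ[k0] Module.End k0 W :=
  Finsupp.linearCombination k0 (fun g => ((d g : k0ˣ) : k0) • ρ g⁻¹)

/-- `T c = Σ c_g a(g)`. -/
noncomputable def Tl : (G →₀ k0) →ₗ[k0] k0 :=
  Finsupp.linearCombination k0 a

@[simp] theorem Xl_single (g : G) (r : k0) : Xl ρ (Finsupp.single g r) = r • ρ g := by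
  simp [Xl]

@[simp] theorem Yl_single (g : G) (r : k0) :
    Yl ρ d (Finsupp.single g r) = r • (((d g : k0ˣ) : k0) • ρ g⁻¹) := by
  simp [Yl]

omit [Group G] in
@[simp] theorem Tl_single (g : G) (r : k0) : Tl a (Finsupp.single g r) = r * a g := by
  simp [Tl]

variable {ρ d a}

theorem rho_mul_inv (g : G) : ρ g * ρ g⁻¹ = 1 := by
  rw [← map_mul, mul_inv_cancel, map_one]

theorem rho_inv_mul (g : G) : ρ g⁻¹ * ρ g = 1 := by
  rw [← map_mul, inv_mul_cancel, map_one]

variable (hq : ∀ g, ρ g * ρ g - a g • ρ g + ((d g : k0ˣ) : k0) • 1 = 0)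
include hq

/-- `d(g) ρ(g)⁻¹ = a(g) - ρ(g)`. -/
theorem star_eq (g : G) : ((d g : k0ˣ) : k0) • ρ g⁻¹ = a g • 1 - ρ g := by
  have h := congrArg (fun z => z * ρ g⁻¹) (hq g)
  simp only [add_mul, sub_mul, zero_mul, mul_assoc, rho_mul_inv, mul_one, smul_mul_assoc,
    one_mul] at h
  rw [eq_sub_iff_add_eq]
  rw [← sub_eq_zero]
  rw [← h]
  abel

/-- `ρ(u) + d(u) ρ(u⁻¹) = a(u)`. -/
theorem add_star_eq (g : G) : ρ g + ((d g : k0ˣ) : k0) • ρ g⁻¹ = a g • 1 := by
  rw [star_eq hq]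
  abel

theorem Yl_eq (c : G →₀ k0) : Yl ρ d c = Tl a c • 1 - Xl ρ c := by
  induction c using Finsupp.induction_linear with
  | zero => simp
  | add f g hf hg => rw [map_add, map_add, map_add, hf, hg, add_smul]; abel
  | single g r => rw [Yl_single, Tl_single, Xl_single, star_eq hq, smul_sub, smul_smul]

/-- the polar form is scalar on generators. -/
theorem polar_single (g h : G) :
    IsScalar (ρ g * (((d h : k0ˣ) : k0) • ρ h⁻¹) + ρ h * (((d g : k0ˣ) : k0) • ρ g⁻¹)) := by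
  refine ⟨((d h : k0ˣ) : k0) * a (g * h⁻¹), ?_⟩
  have h1 := add_star_eq hq (g * h⁻¹)
  have h2 : ρ g * (((d h : k0ˣ) : k0) • ρ h⁻¹) + ρ h * (((d g : k0ˣ) : k0) • ρ g⁻¹) =
      ((d h : k0ˣ) : k0) • (ρ (g * h⁻¹) + ((d (g * h⁻¹) : k0ˣ) : k0) • ρ (g * h⁻¹)⁻¹) := by
    rw [map_mul d, Units.val_mul, mul_inv_rev, inv_inv, map_mul ρ, map_mul ρ, map_inv d,
      Units.val_inv_eq_inv_val, smul_add, smul_smul, mul_smul_comm, mul_smul_comm]
    congr 2
    field_simp
  rw [h2, h1, smul_smul]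

theorem polar_left (g : G) (c : G →₀ k0) :
    IsScalar (ρ g * Yl ρ d c + Xl ρ c * (((d g : k0ˣ) : k0) • ρ g⁻¹)) := by
  induction c using Finsupp.induction_linear with
  | zero => simpa using IsScalar.zero
  | add f h hf hh =>
    have := hf.add hh
    rw [map_add, map_add, mul_add, add_mul]
    convert this using 1
    abel
  | single h r =>
    have := (polar_single hq g h).smul r
    rw [Yl_single, Xl_single]
    convert this using 1
    rw [smul_add, mul_smul_comm, smul_mul_assoc]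

/-- `X c * Y c` is a scalar. -/
theorem Xl_mul_Yl_isScalar (c : G →₀ k0) : IsScalar (Xl ρ c * Yl ρ d c) := by
  induction c using Finsupp.induction with
  | zero => simpa using IsScalar.zero
  | single_add g r f _ _ hf =>
    rw [map_add, map_add, Xl_single, Yl_single, add_mul, mul_add, mul_add]
    have h1 : IsScalar (r • ρ g * r • (((d g : k0ˣ) : k0) • ρ g⁻¹)) := by
      refine ⟨r * r * ((d g : k0ˣ) : k0), ?_⟩
      rw [smul_mul_assoc, mul_smul_comm, mul_smul_comm, rho_mul_inv, smul_smul, smul_smul]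
    have h2 := (polar_left hq g f).smul r
    have h3 : r • ρ g * r • (((d g : k0ˣ) : k0) • ρ g⁻¹) + r • ρ g * Yl ρ d f +
        (Xl ρ f * r • (((d g : k0ˣ) : k0) • ρ g⁻¹) + Xl ρ f * Yl ρ d f) =
        r • ρ g * r • (((d g : k0ˣ) : k0) • ρ g⁻¹) +
          r • (ρ g * Yl ρ d f + Xl ρ f * (((d g : k0ˣ) : k0) • ρ g⁻¹)) + Xl ρ f * Yl ρ d f := by
      simp only [smul_add, smul_mul_assoc, mul_smul_comm]
      abel
    rw [h3]
    exact (h1.add h2).add hf

/-- Every element of the span of `ρ(G)` satisfies a monic quadratic equation. -/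
theorem exists_quadratic_of_mem_span (x : Module.End k0 W)
    (hx : x ∈ Submodule.span k0 (Set.range ρ)) :
    ∃ t n : k0, x * x - t • x + n • 1 = 0 := by
  rw [Finsupp.mem_span_range_iff_exists_finsupp] at hx
  obtain ⟨c, hc⟩ := hx
  have hX : Xl ρ c = x := by
    rw [← hc, Xl, Finsupp.linearCombination_apply]
  obtain ⟨n, hn⟩ := Xl_mul_Yl_isScalar hq c
  rw [Yl_eq hq, hX] at hn
  refine ⟨Tl a c, n, ?_⟩
  rw [mul_sub, mul_smul_comm, mul_one] at hn
  rw [← hn]
  abel

end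

end Fermat.Agent.GJ.Alg
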