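/-
GATE-J / J4-ALG, final step: quadratic relations ⇒ a two-dimensional representation over the
SAME finite field with the prescribed characteristic polynomials.
-/
import Mathlib
import Fermat.Agent.GJ.J4.Quad
import Fermat.Agent.GJ.Alg.Quad
import Fermat.Agent.GJ.Alg.Dim
import Fermat.Agent.GJ.Alg.Cases

set_option autoImplicit false

namespace Fermat.Agent.GJ.Alg

open Polynomial Module

section main

variable {k0 : Type*} [Field k0] {G : Type*} [Group G] {V : Type*}
  [AddCommGroup V] [Module k0 V]

/-- elements of the algebra generated by `ρ(G)` are linear combinations of the `ρ g`. -/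
theorem mem_span_of_mem_adjoin (rho : G →* Module.End k0 V) (x : Module.End k0 V)
    (hx : x ∈ Algebra.adjoin k0 (Set.range rho)) : x ∈ Submodule.span k0 (Set.range rho) := by
  have h1 : (Submonoid.closure (Set.range rho) : Set (Module.End k0 V)) = Set.range rho := by
    rw [← MonoidHom.coe_mrange, Submonoid.closure_eq]
  have h2 : x ∈ Subalgebra.toSubmodule (Algebra.adjoin k0 (Set.range rho)) := hx
  rw [Algebra.adjoin_eq_span, h1] at h2
  exact h2

/-- the representation on a stable subspace -/
noncomputable def restrictRep (rho : G →* Module.End k0 V) (W : Submodule k0 V)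
    (hW : ∀ g, ∀ w ∈ W, rho g w ∈ W) : G →* Module.End k0 W where
  toFun g := (rho g).restrict (hW g)
  map_one' := by
    ext w
    simp
  map_mul' x y := by
    ext w
    simp

theorem restrictRep_apply (rho : G →* Module.End k0 V) (W : Submodule k0 V)
    (hW : ∀ g, ∀ w ∈ W, rho g w ∈ W) (g : G) (w : W) :
    ((restrictRep rho W hW g w : W) : V) = rho g (w : V) := rfl

/-- a relation on `V` restricts to the subspace -/
theorem restrictRep_relation (rho : G →* Module.End k0 V) (W : Submodule k0 V)
    (hW : ∀ g, ∀ w ∈ W, rho g w ∈ W) (g : G) (a e : k0)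
    (h : rho g * rho g - a • rho g + e • 1 = 0) :
    restrictRep rho W hW g * restrictRep rho W hW g - a • restrictRep rho W hW g + e • 1 = 0 := by
  ext w
  have h1 := LinearMap.congr_fun h (w : V)
  simp only [LinearMap.add_apply, LinearMap.sub_apply, Module.End.mul_apply,
    LinearMap.smul_apply, Module.End.one_apply, LinearMap.zero_apply] at h1
  simp only [LinearMap.add_apply, LinearMap.sub_apply, Module.End.mul_apply,
    LinearMap.smul_apply, Module.End.one_apply, LinearMap.zero_apply, Submodule.coe_add,
    Submodule.coe_sub, Submodule.coe_smul, restrictRep_apply, Submodule.coe_zero]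
  exact h1

theorem restrictRep_eq_one (rho : G →* Module.End k0 V) (W : Submodule k0 V)
    (hW : ∀ g, ∀ w ∈ W, rho g w ∈ W) (g : G) (h : rho g = 1) :
    restrictRep rho W hW g = 1 := by
  ext w
  rw [restrictRep_apply, h]
  rfl

theorem exists_rep_two [Finite k0] [Module.Finite k0 V] [Nontrivial V]
    (rho : G →* Module.End k0 V) (d : G →* k0ˣ)
    (hquad : ∀ g, ∃ a : k0, rho g * rho g - a • rho g + ((d g : k0ˣ) : k0) • 1 = 0) :
    ∃ rho2 : G →* Matrix (Fin 2) (Fin 2) k0, (∀ g, rho g = 1 → d g = 1 → rho2 g = 1) ∧
      ∀ (g : G) (a : k0), rho g * rho g - a • rho g + ((d g : k0ˣ) : k0) • 1 = 0 →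
        (rho2 g).charpoly = X ^ 2 - C a * X + C ((d g : k0ˣ) : k0) := by
  classical
  have hfinV : Finite V := Module.finite_of_finite k0
  choose a ha using hquad
  -- uniqueness of `a g`
  have huniq : ∀ g a', rho g * rho g - a' • rho g + ((d g : k0ˣ) : k0) • 1 = 0 → a' = a g := by
    intro g a' h'
    have h1 : (a' - a g) • rho g = 0 := by
      have : (a' - a g) • rho g = (rho g * rho g - a g • rho g + ((d g : k0ˣ) : k0) • 1)
          - (rho g * rho g - a' • rho g + ((d g : k0ˣ) : k0) • 1) := by
        rw [sub_smul]; abel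
      rw [this, ha g, h', sub_zero]
    have h2 : (a' - a g) • (1 : Module.End k0 V) = 0 := by
      have := congrArg (fun z => z * rho g⁻¹) h1
      simpa [smul_mul_assoc, rho_mul_inv] using this
    obtain ⟨v, hv⟩ := exists_ne (0 : V)
    have h3 := LinearMap.congr_fun h2 v
    simp only [LinearMap.smul_apply, Module.End.one_apply, LinearMap.zero_apply,
      smul_eq_zero] at h3
    exact sub_eq_zero.mp (h3.resolve_right hv)
  -- the algebra generated by the image
  let A : Subalgebra k0 (Module.End k0 V) := Algebra.adjoin k0 (Set.range rho)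
  have hrhoA : ∀ g, rho g ∈ A := fun g => Algebra.subset_adjoin ⟨g, rfl⟩
  -- a simple `A`-submodule
  obtain ⟨W1, hW1⟩ : ∃ W1 : Submodule A V, IsAtom W1 := by
    rcases IsAtomic.eq_bot_or_exists_atom_le (⊤ : Submodule A V) with h | ⟨W1, h, -⟩
    · exact absurd h top_ne_bot
    · exact ⟨W1, h⟩
  have hsimple1 : IsSimpleModule A W1 := isSimpleModule_iff_isAtom.mpr hW1
  let W : Submodule k0 V := W1.restrictScalars k0
  have hsimple : IsSimpleModule A W :=
    IsSimpleModule.congr (N := ↥W1) (Submodule.restrictScalarsEquiv k0 A V W1)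
  have hWstab : ∀ g, ∀ w ∈ W, rho g w ∈ W := fun g w hw => W1.smul_mem ⟨rho g, hrhoA g⟩ hw
  have hfinW : Module.Finite k0 W := Module.Finite.of_finite
  have hntW : Nontrivial W := IsSimpleModule.nontrivial A W
  have hdim : Module.finrank k0 W ≤ 2 := by
    apply finrank_le_two_of_quadratic_ring (R := A) (W := W)
    intro x
    obtain ⟨t, n, htn⟩ := exists_quadratic_of_mem_span ha (x : Module.End k0 V)
      (mem_span_of_mem_adjoin rho x x.2)
    refine ⟨t, n, fun w => ?_⟩
    apply Subtype.ext
    have h1 := LinearMap.congr_fun htn (w : V)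
    simp only [LinearMap.add_apply, LinearMap.sub_apply, Module.End.mul_apply,
      LinearMap.smul_apply, Module.End.one_apply, LinearMap.zero_apply] at h1
    exact h1
  let rho0 : G →* Module.End k0 W := restrictRep rho W hWstab
  let d' : G →* k0 := (Units.coeHom k0).comp d
  have hq0 : ∀ g, rho0 g * rho0 g - a g • rho0 g + d' g • 1 = 0 := fun g =>
    restrictRep_relation rho W hWstab g (a g) _ (ha g)
  by_cases hsc : ∀ g, ∃ c : k0, rho0 g = c • 1
  · -- all scalars: a character
    choose c hc using hsc
    obtain ⟨w0, hw0⟩ := exists_ne (0 : W)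
    have hinj : ∀ s t : k0, s • (1 : Module.End k0 W) = t • 1 → s = t := by
      intro s t hst
      have := LinearMap.congr_fun hst w0
      simp only [LinearMap.smul_apply, Module.End.one_apply] at this
      exact smul_left_injective k0 hw0 this
    let χ : G →* k0 :=
      { toFun := c
        map_one' := hinj _ _ (by rw [← hc, map_one, one_smul])
        map_mul' := fun x y => hinj _ _ (by
          rw [← hc, map_mul, hc x, hc y, smul_mul_smul_comm, mul_one]) }
    have hχ : ∀ g, χ g * χ g - a g * χ g + d' g = 0 := by
      intro g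
      have h1 := LinearMap.congr_fun (hq0 g) w0
      rw [hc g] at h1
      simp only [LinearMap.add_apply, LinearMap.sub_apply, Module.End.mul_apply,
        LinearMap.smul_apply, Module.End.one_apply, LinearMap.zero_apply] at h1
      rw [smul_smul, smul_smul, ← sub_smul, ← add_smul] at h1
      exact (smul_eq_zero.mp h1).resolve_right hw0
    obtain ⟨r2, hr2one, hr2cp⟩ := J4.exists_two_dim_of_character χ d' a hχ
    refine ⟨r2, ?_, ?_⟩
    · intro g hg hdg
      apply hr2one g
      · apply hinj
        rw [one_smul]
        change c g • (1 : Module.End k0 W) = 1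
        rw [← hc g]
        exact restrictRep_eq_one rho W hWstab g hg
      · change ((d g : k0ˣ) : k0) = 1
        rw [hdg]
        rfl
    · intro g a' ha'
      rw [huniq g a' ha']
      exact hr2cp g
  · -- some non-scalar element: dimension two
    push Not at hsc
    obtain ⟨τ, hτ⟩ := hsc
    have h2 : Module.finrank k0 W = 2 := by
      have hpos : 0 < Module.finrank k0 W := Module.finrank_pos
      rcases (by omega : Module.finrank k0 W = 1 ∨ Module.finrank k0 W = 2) with h1 | h2
      · obtain ⟨c, hc⟩ := exists_eq_smul_one_of_finrank_eq_one h1 (rho0 τ)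
        exact absurd hc (hτ c)
      · exact h2
    let b : Module.Basis (Fin 2) k0 W := Module.finBasisOfFinrankEq k0 W h2
    let rho2 : G →* Matrix (Fin 2) (Fin 2) k0 :=
      (LinearMap.toMatrixAlgEquiv b).toAlgHom.toRingHom.toMonoidHom.comp rho0
    have hrho2 : ∀ g, rho2 g = LinearMap.toMatrix b b (rho0 g) := fun g => rfl
    refine ⟨rho2, ?_, ?_⟩
    · intro g hg _
      rw [hrho2, restrictRep_eq_one rho W hWstab g hg]
      exact LinearMap.toMatrix_one b
    · intro g a' ha'
      rw [huniq g a' ha', hrho2, LinearMap.charpoly_toMatrix]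
      exact charpoly_eq_of_quadratic_of_not_scalar τ hτ h2 hq0 g

end main

end Fermat.Agent.GJ.Alg
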