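/-
GATE-J / J4-ALG glue: `exists_rep_two` discharges the interface `J4Asm.RepTwoStmt k0` of
GJ/J4/S29Asm.lean for every FINITE field `k0`.
-/
import Mathlib
import Fermat.Agent.GJ.Alg.Main
import Fermat.Agent.GJ.J4.S29Asm

set_option autoImplicit false

namespace Fermat.Agent.GJ.Alg

/-- (ALG) holds over every finite field. -/
theorem repTwoStmt_of_finite (k0 : Type) [Field k0] [Finite k0] : J4Asm.RepTwoStmt k0 := by
  intro V _ _ _ _ rho d hquad
  exact exists_rep_two rho d hquad

end Fermat.Agent.GJ.Alg
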